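/-
Hermite–Minkowski finiteness, piece 1 (helper10): a crude bound for the different of a Galois
number field, proved without local fields.  If `P` is a prime of `𝓞 K` over `q` and
`[K : ℚ] < q ^ m`, then every power of `P` dividing the different divides `(q ^ m)`.

Proof: write `(q ^ m) = P ^ j * J` with `P ∤ J`, choose `u ∈ J` with `u ≡ 1` mod `P ^ j`; then
`Tr u = ∑ σ, σ u ≡ #D_P` mod `P ^ j`, where `#D_P ≤ [K : ℚ] < q ^ m`, so `q ^ m ∤ Tr u`, and
the trace criterion of Mathlib shows `P ^ j ∤ 𝔇`.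
-/
import Mathlib

set_option autoImplicit false

namespace Fermat.Agent.HermiteMinkowski

open NumberField
open scoped Pointwise

variable {K : Type*} [Field K] [NumberField K]

/-- The trace of an algebraic integer is the sum of its Galois conjugates (in `𝓞 K`). -/
theorem algebraMap_intTrace_eq_sum [IsGalois ℚ K] (u : 𝓞 K) :
    algebraMap ℤ (𝓞 K) (Algebra.intTrace ℤ (𝓞 K) u) = ∑ σ : K ≃ₐ[ℚ] K, σ • u := by
  apply FaithfulSMul.algebraMap_injective (𝓞 K) K
  rw [← IsScalarTower.algebraMap_apply ℤ (𝓞 K) K, IsScalarTower.algebraMap_apply ℤ ℚ K,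
    Algebra.algebraMap_intTrace (A := ℤ) (K := ℚ) (L := K) (B := 𝓞 K), trace_eq_sum_automorphisms,
    map_sum]
  rfl

/-- An ideal of `𝓞 K` generated by a rational integer is Galois stable. -/
theorem smul_span_natCast (σ : K ≃ₐ[ℚ] K) (c : ℕ) :
    σ • Ideal.span {(c : 𝓞 K)} = Ideal.span {(c : 𝓞 K)} := by
  rw [Ideal.pointwise_smul_def, Ideal.map_span, Set.image_singleton, map_natCast]

/-- If a maximal ideal `P` does not divide `J`, then `P ^ j` and `J` are coprime. -/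
theorem isCoprime_pow_of_not_dvd {R : Type*} [CommRing R] [IsDedekindDomain R]
    (P J : Ideal R) (hP : P.IsMaximal) (h : ¬ P ∣ J) (j : ℕ) : IsCoprime (P ^ j) J := by
  apply IsCoprime.pow_left
  rw [Ideal.isCoprime_iff_sup_eq]
  by_contra hne
  have := hP.eq_of_le hne le_sup_left
  apply h
  rw [Ideal.dvd_iff_le, this]
  exact le_sup_right

/-- Key congruence: if `(c) = P ^ j * J` with `P` maximal, and `u ∈ J`,
`1 - u ∈ P ^ j`, then `∑ σ, σ u ≡ #{σ | σ⁻¹ P = P}` modulo `P ^ j`. -/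
theorem sum_smul_sub_card_mem [IsGalois ℚ K] (P J : Ideal (𝓞 K)) (hP : P.IsMaximal)
    (c j : ℕ) (hI : Ideal.span {(c : 𝓞 K)} = P ^ j * J)
    (u : 𝓞 K) (hu : u ∈ J) (hu1 : 1 - u ∈ P ^ j) :
    ∃ d : ℕ, 0 < d ∧ d ≤ Module.finrank ℚ K ∧
      (∑ σ : K ≃ₐ[ℚ] K, σ • u) - (d : 𝓞 K) ∈ P ^ j := by
  classical
  let D : Finset (K ≃ₐ[ℚ] K) := Finset.univ.filter fun σ => σ⁻¹ • P = P
  refine ⟨D.card, ?_, ?_, ?_⟩
  · apply Finset.card_pos.mpr
    refine ⟨1, ?_⟩
    simp [D]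
  · calc D.card ≤ (Finset.univ : Finset (K ≃ₐ[ℚ] K)).card := Finset.card_le_univ _
      _ = Nat.card (K ≃ₐ[ℚ] K) := by rw [Finset.card_univ, Nat.card_eq_fintype_card]
      _ = Module.finrank ℚ K := IsGalois.card_aut_eq_finrank ℚ K
  · have hterm : ∀ σ : K ≃ₐ[ℚ] K, σ • u - (if σ ∈ D then (1 : 𝓞 K) else 0) ∈ P ^ j := by
      intro σ
      have hpow : σ⁻¹ • (P ^ j) = (σ⁻¹ • P) ^ j := smul_pow' σ⁻¹ P j
      by_cases hσ : σ ∈ D
      · rw [if_pos hσ]
        have hσP : σ⁻¹ • P = P := by simpa [D] using hσ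
        have h1 : 1 - u ∈ σ⁻¹ • (P ^ j) := by rw [hpow, hσP]; exact hu1
        rw [Ideal.mem_pointwise_smul_iff_inv_smul_mem, inv_inv, smul_sub, smul_one] at h1
        have := (P ^ j).neg_mem h1
        rwa [neg_sub] at this
      · rw [if_neg hσ, sub_zero]
        have hσP : σ⁻¹ • P ≠ P := by simpa [D] using hσ
        have hmax' : (σ⁻¹ • P).IsMaximal := by
          rw [Ideal.pointwise_smul_def]
          exact Ideal.map_isMaximal_of_equiv (MulSemiringAction.toRingEquiv _ (𝓞 K) σ⁻¹)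
        have hcop : IsCoprime ((σ⁻¹ • P) ^ j) (P ^ j) := by
          apply IsCoprime.pow
          rw [Ideal.isCoprime_iff_sup_eq]
          exact Ideal.IsMaximal.coprime_of_ne hmax' hP hσP
        have hdvd : (σ⁻¹ • P) ^ j ∣ P ^ j * J := by
          rw [← hI, ← smul_span_natCast σ⁻¹ c, hI, ← hpow]
          rw [Ideal.dvd_iff_le]
          rw [Ideal.pointwise_smul_def, Ideal.pointwise_smul_def]
          exact Ideal.map_mono Ideal.mul_le_left
        have hJle : J ≤ (σ⁻¹ • P) ^ j := Ideal.dvd_iff_le.mp (hcop.dvd_of_dvd_mul_left hdvd)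
        have h1 := hJle hu
        rw [← hpow, Ideal.mem_pointwise_smul_iff_inv_smul_mem, inv_inv] at h1
        exact h1
    have hsum := (P ^ j).sum_mem (t := Finset.univ) fun σ _ => hterm σ
    rw [Finset.sum_sub_distrib] at hsum
    have hcard : (∑ σ : K ≃ₐ[ℚ] K, if σ ∈ D then (1 : 𝓞 K) else 0) = (D.card : 𝓞 K) := by
      rw [Finset.sum_ite_mem, Finset.univ_inter, Finset.sum_const, nsmul_eq_mul, mul_one]
    rwa [hcard] at hsum

/-- In an ideal of `ℤ` containing `d` with `0 < d < q ^ m` and `q ^ m` (`q` prime), one finds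
`q ^ (m - 1)`. -/
theorem prime_pow_pred_mem {R : Type*} [CommRing R] (I : Ideal R) (q : ℕ) (hq : q.Prime)
    (m d : ℕ) (hd0 : 0 < d) (hdm : d < q ^ m) (hd : (d : R) ∈ I) (hqm : ((q ^ m : ℕ) : R) ∈ I) :
    ((q ^ (m - 1) : ℕ) : R) ∈ I := by
  have hg : ((Nat.gcd d (q ^ m) : ℕ) : R) ∈ I := by
    have h := Int.gcd_eq_gcd_ab (d : ℤ) ((q ^ m : ℕ) : ℤ)
    have h2 : ((Nat.gcd d (q ^ m) : ℕ) : R) =
        (d : R) * ((Int.gcdA d ((q ^ m : ℕ) : ℤ) : ℤ) : R) +
          ((q ^ m : ℕ) : R) * ((Int.gcdB d ((q ^ m : ℕ) : ℤ) : ℤ) : R) := by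
      have h3 := congrArg (fun z : ℤ => (z : R)) h
      simp only [Int.cast_add, Int.cast_mul, Int.cast_natCast] at h3
      rw [← h3, Int.gcd_natCast_natCast]
    rw [h2]
    exact I.add_mem (I.mul_mem_right _ hd) (I.mul_mem_right _ hqm)
  obtain ⟨a, ha, hga⟩ := (Nat.dvd_prime_pow hq).mp (Nat.gcd_dvd_right d (q ^ m))
  have ham : a ≠ m := by
    rintro rfl
    have : q ^ a ∣ d := hga ▸ Nat.gcd_dvd_left d (q ^ a)
    exact absurd (Nat.le_of_dvd hd0 this) (not_le.mpr hdm)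
  have hle : a ≤ m - 1 := by omega
  obtain ⟨t, ht⟩ := pow_dvd_pow q hle
  rw [ht, ← hga, Nat.cast_mul]
  exact I.mul_mem_right _ hg

/-- **Crude bound for the different** (Galois case, no local fields): if `P` lies over `q` and
`[K : ℚ] < q ^ m`, then every power of `P` dividing the different divides `(q ^ m)`. -/
theorem pow_dvd_span_of_pow_dvd_differentIdeal [IsGalois ℚ K] (P : Ideal (𝓞 K)) [hPp : P.IsPrime]
    (hP0 : P ≠ ⊥) (q : ℕ) (hq : q.Prime) (hqP : (q : 𝓞 K) ∈ P) (m : ℕ)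
    (hm : Module.finrank ℚ K < q ^ m) (k : ℕ) (hk : P ^ k ∣ differentIdeal ℤ (𝓞 K)) :
    P ^ k ∣ Ideal.span {((q ^ m : ℕ) : 𝓞 K)} := by
  have hPmax : P.IsMaximal := hPp.isMaximal hP0
  have hPprime : Prime P := (Ideal.prime_iff_isPrime hP0).mpr hPp
  have hI0 : Ideal.span {((q ^ m : ℕ) : 𝓞 K)} ≠ 0 := by
    rw [Ideal.zero_eq_bot, Ne, Ideal.span_singleton_eq_bot]
    exact_mod_cast (pow_pos hq.pos m).ne'
  obtain ⟨j, J, hJ, hI⟩ := WfDvdMonoid.max_power_factor hI0 hPprime.irreducible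
  by_contra hcon
  have hjk : j < k := by
    by_contra hle
    push Not at hle
    exact hcon ((pow_dvd_pow P hle).trans (hI ▸ Dvd.intro J rfl))
  -- it suffices to show that `P ^ j` does not divide the different
  suffices hnot : ¬ P ^ j ∣ differentIdeal ℤ (𝓞 K) from
    hnot ((pow_dvd_pow P hjk.le).trans hk)
  obtain ⟨a, ha, b, hb, hab⟩ := Ideal.isCoprime_iff_exists.mp
    (isCoprime_pow_of_not_dvd P J hPmax hJ j)
  have hu1 : 1 - b ∈ P ^ j := by
    have : 1 - b = a := by rw [← hab]; ring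
    rw [this]; exact ha
  have hmap : P ^ j * J = Ideal.map (algebraMap ℤ (𝓞 K)) (Ideal.span {((q ^ m : ℕ) : ℤ)}) := by
    rw [Ideal.map_span, Set.image_singleton, ← hI, map_natCast]
  refine not_dvd_differentIdeal_of_intTrace_not_mem ℤ (P ^ j) J hmap b hb ?_
  intro htr
  obtain ⟨d, hd0, hdn, hd⟩ := sum_smul_sub_card_mem P J hPmax (q ^ m) j hI b hb hu1
  have hIle : Ideal.span {((q ^ m : ℕ) : 𝓞 K)} ≤ P ^ j := by
    rw [hI]; exact Ideal.mul_le_left
  have htr' : algebraMap ℤ (𝓞 K) (Algebra.intTrace ℤ (𝓞 K) b) ∈ P ^ j := by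
    apply hIle
    obtain ⟨z, hz⟩ := Ideal.mem_span_singleton'.mp htr
    rw [← hz, map_mul, map_natCast]
    exact Ideal.mul_mem_left _ _ (Ideal.subset_span rfl)
  rw [algebraMap_intTrace_eq_sum] at htr'
  have hdmem : (d : 𝓞 K) ∈ P ^ j := by
    have := (P ^ j).sub_mem htr' hd
    rwa [sub_sub_cancel] at this
  have hqmem : ((q ^ m : ℕ) : 𝓞 K) ∈ P ^ j := hIle (Ideal.subset_span rfl)
  have hpred := prime_pow_pred_mem (P ^ j) q hq m d hd0 (lt_of_le_of_lt hdn hm) hdmem hqmem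
  -- now `P ^ j ∣ (q ^ (m - 1))`, which contradicts `P ∤ J`
  have hm1 : 1 ≤ m := by
    rcases Nat.eq_zero_or_pos m with rfl | h
    · exfalso
      have : 0 < Module.finrank ℚ K := Module.finrank_pos
      simp at hm
      omega
    · exact h
  obtain ⟨T, hT⟩ : P ^ j ∣ Ideal.span {((q ^ (m - 1) : ℕ) : 𝓞 K)} := by
    rw [Ideal.dvd_iff_le, Ideal.span_singleton_le_iff_mem]
    exact hpred
  have hsplit : Ideal.span {((q ^ m : ℕ) : 𝓞 K)} =
      Ideal.span {(q : 𝓞 K)} * Ideal.span {((q ^ (m - 1) : ℕ) : 𝓞 K)} := by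
    rw [Ideal.span_singleton_mul_span_singleton]
    congr 2
    rw [← Nat.cast_mul, ← pow_succ']
    congr 2
    omega
  have hJeq : J = Ideal.span {(q : 𝓞 K)} * T := by
    have h1 : P ^ j * J = P ^ j * (Ideal.span {(q : 𝓞 K)} * T) := by
      rw [← hI, hsplit, hT]; ring
    exact mul_left_cancel₀ (pow_ne_zero j hPprime.ne_zero) h1
  apply hJ
  rw [hJeq]
  refine Dvd.dvd.mul_right ?_ T
  rw [Ideal.dvd_iff_le, Ideal.span_singleton_le_iff_mem]
  exact hqP

end Fermat.Agent.HermiteMinkowski
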