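/-
Hermite–Minkowski finiteness, piece 3a (helper10): the different of a Galois number field of degree
`≤ n` unramified outside `S` divides `∏_{q ∈ S} q ^ n`; hence `|d_K| ≤ (∏_{q ∈ S} q ^ n) ^ n`.
-/
import Fermat.Agent.Lib.HermiteMinkowski.DifferentBound

set_option autoImplicit false

namespace Fermat.Agent.HermiteMinkowski

open NumberField

variable {K : Type*} [Field K] [NumberField K]

omit [NumberField K] in
/-- A nonzero prime of `𝓞 K` contains a rational prime. -/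
theorem exists_prime_natCast_mem (P : Ideal (𝓞 K)) [hP : P.IsPrime] (hP0 : P ≠ ⊥) :
    ∃ q : ℕ, q.Prime ∧ (q : 𝓞 K) ∈ P := by
  have hne : P.under ℤ ≠ ⊥ := fun h => hP0 (Ideal.eq_bot_of_comap_eq_bot h)
  have hprime : (P.under ℤ).IsPrime := inferInstance
  have hgen := Submodule.IsPrincipal.prime_generator_of_isPrime (P.under ℤ) hne
  set g := Submodule.IsPrincipal.generator (P.under ℤ) with hg
  refine ⟨g.natAbs, Int.prime_iff_natAbs_prime.mp hgen, ?_⟩
  have hmem : g ∈ P.under ℤ := Submodule.IsPrincipal.generator_mem _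
  have hmem' : ((g.natAbs : ℤ)) ∈ P.under ℤ := by
    rcases Int.natAbs_eq g with h | h
    · rw [← h]; exact hmem
    · have : ((g.natAbs : ℤ)) = -g := by omega
      rw [this]; exact (P.under ℤ).neg_mem hmem
  have := Ideal.mem_comap.mp hmem'
  simpa using this

/-- The different of a Galois number field of degree `≤ n` unramified outside `S` divides
`∏_{q ∈ S prime} q ^ n`. -/
theorem differentIdeal_dvd_span [IsGalois ℚ K] (S : Finset ℕ) (n : ℕ)
    (hn : Module.finrank ℚ K ≤ n)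
    (hunr : ∀ q : ℕ, q.Prime → q ∉ S → ∀ (P : Ideal (𝓞 K)) (_ : P.IsPrime), (q : 𝓞 K) ∈ P →
      Algebra.IsUnramifiedAt ℤ P) :
    differentIdeal ℤ (𝓞 K) ∣
      Ideal.span {((∏ q ∈ S.filter Nat.Prime, q ^ n : ℕ) : 𝓞 K)} := by
  rw [UniqueFactorizationMonoid.dvd_iff_emultiplicity_le
    (by rw [Ideal.zero_eq_bot]; exact differentIdeal_ne_bot)]
  intro P hPprime
  rw [emultiplicity_le_emultiplicity_iff]
  intro k hk
  have hP0 : P ≠ ⊥ := hPprime.ne_zero
  have hPp : P.IsPrime := (Ideal.prime_iff_isPrime hP0).mp hPprime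
  obtain ⟨q, hq, hqP⟩ := exists_prime_natCast_mem P hP0
  by_cases hqS : q ∈ S
  · have hlt : Module.finrank ℚ K < q ^ n :=
      lt_of_le_of_lt hn (lt_of_lt_of_le n.lt_two_pow_self
        (Nat.pow_le_pow_left hq.two_le n))
    refine (pow_dvd_span_of_pow_dvd_differentIdeal P hP0 q hq hqP n hlt k hk).trans ?_
    rw [Ideal.dvd_iff_le, Ideal.span_singleton_le_iff_mem]
    have hdvd : q ^ n ∣ ∏ q ∈ S.filter Nat.Prime, q ^ n :=
      Finset.dvd_prod_of_mem (fun q => q ^ n) (Finset.mem_filter.mpr ⟨hqS, hq⟩)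
    obtain ⟨t, ht⟩ := hdvd
    rw [ht, Nat.cast_mul]
    exact Ideal.mul_mem_right _ _ (Ideal.subset_span rfl)
  · have hur := hunr q hq hqS P hPp hqP
    have hnd : ¬ P ∣ differentIdeal ℤ (𝓞 K) := not_dvd_differentIdeal_iff.mpr hur
    rcases Nat.eq_zero_or_pos k with rfl | hkpos
    · rw [pow_zero]; exact one_dvd _
    · exact absurd ((dvd_pow_self P hkpos.ne').trans hk) hnd

/-- **Discriminant bound**: a Galois number field of degree `≤ n` unramified outside `S` has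
`|d_K| ≤ (∏_{q ∈ S prime} q ^ n) ^ n`. -/
theorem natAbs_discr_le [IsGalois ℚ K] (S : Finset ℕ) (n : ℕ)
    (hn : Module.finrank ℚ K ≤ n)
    (hunr : ∀ q : ℕ, q.Prime → q ∉ S → ∀ (P : Ideal (𝓞 K)) (_ : P.IsPrime), (q : 𝓞 K) ∈ P →
      Algebra.IsUnramifiedAt ℤ P) :
    (discr K).natAbs ≤ (∏ q ∈ S.filter Nat.Prime, q ^ n) ^ n := by
  set c : ℕ := ∏ q ∈ S.filter Nat.Prime, q ^ n with hc
  have hcpos : 0 < c := Finset.prod_pos fun q hq =>
    pow_pos (Finset.mem_filter.mp hq).2.pos n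
  have hdvd := differentIdeal_dvd_span S n hn hunr
  have h1 := Ideal.absNorm_dvd_absNorm_of_le (Ideal.dvd_iff_le.mp hdvd)
  rw [absNorm_differentIdeal K (𝓞 K), Ideal.absNorm_span_singleton] at h1
  have h2 : (Algebra.norm ℤ ((c : ℕ) : 𝓞 K)).natAbs = c ^ Module.finrank ℚ K := by
    have : ((c : ℕ) : 𝓞 K) = algebraMap ℤ (𝓞 K) (c : ℤ) := by simp
    rw [this, Algebra.norm_algebraMap, RingOfIntegers.rank, Int.natAbs_pow, Int.natAbs_natCast]
  rw [h2] at h1
  calc (discr K).natAbs ≤ c ^ Module.finrank ℚ K :=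
        Nat.le_of_dvd (pow_pos hcpos _) h1
    _ ≤ c ^ n := Nat.pow_le_pow_right hcpos hn

end Fermat.Agent.HermiteMinkowski
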