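/-
Hermite–Minkowski finiteness, pieces 2 and 3a (helper10): the discriminant bound for a Galois
number field of bounded degree unramified outside `S`, and the bridge from inertia subgroups of
`Gal(ℚ̄/ℚ)` (valuation subrings of `ℚ̄`) to `Algebra.IsUnramifiedAt`.
-/
import Fermat.Agent.Lib.HermiteMinkowski.DiscrBound
import Fermat.Agent.Lib.Minkowski.Final

set_option autoImplicit false

namespace Fermat.Agent.HermiteMinkowski

open NumberField Fermat.Agent.FrobExists Fermat.Agent.Minkowski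

/-- All primes of a Galois number field over the same rational prime are simultaneously
unramified. -/
theorem isUnramifiedAt_of_isUnramifiedAt {K : Type*} [Field K] [NumberField K] [IsGalois ℚ K]
    (q : ℕ) (hq : q.Prime) (P P' : Ideal (𝓞 K)) (hP : P.IsPrime) (hP' : P'.IsPrime)
    (hqP : (q : 𝓞 K) ∈ P) (hqP' : (q : 𝓞 K) ∈ P')
    (h : Algebra.IsUnramifiedAt ℤ P) : Algebra.IsUnramifiedAt ℤ P' := by
  let : MulSemiringAction Gal(K/ℚ) (𝓞 K) := IsIntegralClosure.MulSemiringAction ℤ ℚ K (𝓞 K)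
  have hG := IsGaloisGroup.of_isFractionRing Gal(K/ℚ) ℤ (𝓞 K) ℚ K
  have hqmax : (Ideal.span {(q : ℤ)}).IsMaximal :=
    PrincipalIdealRing.isMaximal_of_irreducible (Nat.prime_iff_prime_int.mp hq).irreducible
  have hunder : ∀ Q : Ideal (𝓞 K), Q.IsPrime → (q : 𝓞 K) ∈ Q → Q.under ℤ = Ideal.span {(q : ℤ)} := by
    intro Q hQ hqQ
    symm
    apply hqmax.eq_of_le (Ideal.IsPrime.ne_top inferInstance)
    rw [Ideal.span_singleton_le_iff_mem, Ideal.under, Ideal.mem_comap]
    simpa using hqQ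
  have hl : P.LiesOver (Ideal.span {(q : ℤ)}) := ⟨(hunder P hP hqP).symm⟩
  have hl' : P'.LiesOver (Ideal.span {(q : ℤ)}) := ⟨(hunder P' hP' hqP').symm⟩
  have hmax : (P.under ℤ).IsMaximal := by rw [hunder P hP hqP]; exact hqmax
  have hmax' : (P'.under ℤ).IsMaximal := by rw [hunder P' hP' hqP']; exact hqmax
  have e1 := Ideal.ramificationIdxIn_eq_ramificationIdx (Ideal.span {(q : ℤ)}) P Gal(K/ℚ)
  have e2 := Ideal.ramificationIdxIn_eq_ramificationIdx (Ideal.span {(q : ℤ)}) P' Gal(K/ℚ)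
  rw [← Ideal.ramificationIdx_eq_one_iff] at h ⊢
  rw [← e2, e1, h]

/-- **Bridge**: if an inertia subgroup of `Gal(ℚ̄/ℚ)` above `q` fixes the finite Galois
subextension `L`, then every prime of `L` above `q` is unramified. -/
theorem isUnramifiedAt_of_inertia_le (L : IntermediateField ℚ Qb) [FiniteDimensional ℚ L]
    [IsGalois ℚ L] (q : ℕ) (hq : q.Prime) (A : ValuationSubring Qb) (hA : A.LiesOverPrime q)
    (hI : ∀ σ ∈ A.inertiaSubgroupIn ℚ, σ ∈ L.fixingSubgroup)
    (P : Ideal (𝓞 L)) (hP : P.IsPrime) (hqP : (q : 𝓞 L) ∈ P) :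
    Algebra.IsUnramifiedAt ℤ P := by
  have hnf : NumberField L :=
    { to_charZero := inferInstance, to_finiteDimensional := inferInstance }
  -- the prime of `𝓞 L` below `A`
  let φ : 𝓞 L →+* A :=
    { toFun := fun x => ⟨((x : L) : Qb), mem_valuationSubring_of_isIntegral A
        (x.isIntegral_coe.map (IsScalarTower.toAlgHom ℤ L Qb))⟩
      map_one' := rfl
      map_mul' := fun _ _ => rfl
      map_zero' := rfl
      map_add' := fun _ _ => rfl }
  let PA : Ideal (𝓞 L) := Ideal.comap φ (IsLocalRing.maximalIdeal A)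
  have hPAprime : PA.IsPrime := Ideal.comap_isPrime _ _
  have hmemP : ∀ y : 𝓞 L, y ∈ PA ↔ (((y : L) : Qb)) ∈ A.nonunits := by
    intro y
    rw [Ideal.mem_comap, ← ValuationSubring.coe_mem_nonunits_iff]
    rfl
  have hqPA : ((q : ℕ) : 𝓞 L) ∈ PA := by
    rw [hmemP]
    have : (((q : 𝓞 L) : L) : Qb) = (q : Qb) := by simp
    rw [this]
    exact hA
  have hPA0 : PA ≠ ⊥ := by
    intro h
    rw [h, Ideal.mem_bot] at hqPA
    exact hq.ne_zero (by exact_mod_cast hqPA)
  have hPAunr : Algebra.IsUnramifiedAt ℤ PA := by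
    by_contra hram
    obtain ⟨s, hs1, hs⟩ := exists_inertia_ne_one PA hPA0 hram
    obtain ⟨σ, hσI, hσs⟩ := exists_mem_inertiaSubgroupIn_restrict A q hq hA L s (by
      intro x hx
      obtain ⟨y, hyP, hy⟩ := hs ⟨x, hx⟩
      have hy' : ((s x : L) : Qb) - (x : Qb) = (((y : L)) : Qb) :=
        congrArg (fun z : L => (z : Qb)) hy
      rw [hy']
      exact (hmemP y).mp hyP)
    have hfix := restrictNormalHom_eq_one_of_mem_fixingSubgroup L (hI σ hσI)
    exact hs1 (hσs ▸ hfix)
  exact isUnramifiedAt_of_isUnramifiedAt q hq PA P hPAprime hP hqPA hqP hPAunr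

end Fermat.Agent.HermiteMinkowski
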