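/-
Hermite–Minkowski finiteness (helper10), final form: finitely many finite Galois subextensions of
`ℚ̄/ℚ` of bounded degree unramified outside a finite set `S` of primes; equivalently finitely many
open normal subgroups of `Gal(ℚ̄/ℚ)` of bounded index containing the inertia groups outside `S`.
Inputs: Hermite (Mathlib `NumberField.finite_of_discr_bdd`), the crude different bound
(`DifferentBound.lean`), inertia lifting (`Lib/Minkowski`).
-/
import Fermat.Agent.Lib.HermiteMinkowski.Unramified

set_option autoImplicit false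

namespace Fermat.Agent.HermiteMinkowski

open NumberField Fermat.Agent.FrobExists Fermat.Agent.Minkowski

attribute [local instance] isAlgebraic_Qb isAlgClosure_Qb

/-- **Hermite–Minkowski, field form**: there are only finitely many finite Galois subextensions
of `ℚ̄/ℚ` of degree `≤ n` which are unramified outside `S` (in the sense that for every prime
`q ∉ S` some inertia subgroup above `q` fixes the field). -/
theorem finite_galois_unramifiedOutside (S : Finset ℕ) (n : ℕ) :
    {L : IntermediateField ℚ Qb | FiniteDimensional ℚ L ∧ IsGalois ℚ L ∧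
      Module.finrank ℚ L ≤ n ∧
      ∀ q : ℕ, q.Prime → q ∉ S → ∃ A : ValuationSubring Qb, A.LiesOverPrime q ∧
        ∀ σ ∈ A.inertiaSubgroupIn ℚ, σ ∈ L.fixingSubgroup}.Finite := by
  set B : ℕ := (∏ q ∈ S.filter Nat.Prime, q ^ n) ^ n with hB
  have hfin := NumberField.finite_of_discr_bdd Qb B
  refine (hfin.image Subtype.val).subset ?_
  rintro L ⟨hLfin, hLgal, hLn, hLunr⟩
  refine ⟨⟨L, hLfin⟩, ?_, rfl⟩
  have hnf : NumberField L :=
    { to_charZero := inferInstance, to_finiteDimensional := hLfin }
  show |discr L| ≤ (B : ℤ)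
  have h := natAbs_discr_le (K := L) S n hLn (fun q hq hqS P hP hqP => by
    obtain ⟨A, hA, hI⟩ := hLunr q hq hqS
    exact isUnramifiedAt_of_inertia_le L q hq A hA hI P hP hqP)
  rw [Int.abs_eq_natAbs]
  exact_mod_cast h

/-- **Hermite–Minkowski, subgroup form**: there are only finitely many open normal subgroups of
`Gal(ℚ̄/ℚ)` of index `≤ n` containing, for every prime `q ∉ S`, an inertia subgroup above `q`. -/
theorem finite_openNormal_unramifiedOutside (S : Finset ℕ) (n : ℕ) :
    {H : Subgroup GQ | H.Normal ∧ IsOpen (H : Set GQ) ∧ H.index ≤ n ∧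
      ∀ q : ℕ, q.Prime → q ∉ S → ∃ A : ValuationSubring Qb, A.LiesOverPrime q ∧
        A.inertiaSubgroupIn ℚ ≤ H}.Finite := by
  refine ((finite_galois_unramifiedOutside S n).image
    (fun L : IntermediateField ℚ Qb => L.fixingSubgroup)).subset ?_
  rintro H ⟨hHn, hHo, hHi, hHunr⟩
  have hGal : IsGalois ℚ Qb := isGalois_Qb
  let N : ClosedSubgroup GQ :=
    { toSubgroup := H
      isClosed' := Subgroup.isClosed_of_isOpen _ hHo }
  let L : IntermediateField ℚ Qb := IntermediateField.fixedField H
  have hfix : L.fixingSubgroup = H := InfiniteGalois.fixingSubgroup_fixedField N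
  have hfin : FiniteDimensional ℚ L := by
    rw [← InfiniteGalois.isOpen_iff_finite, hfix]
    exact hHo
  have hgal : IsGalois ℚ L := by
    have hnormal : L.fixingSubgroup.Normal := by
      rw [hfix]
      exact hHn
    exact (InfiniteGalois.normal_iff_isGalois L).mp hnormal
  refine ⟨L, ⟨hfin, hgal, ?_, ?_⟩, hfix⟩
  · rw [IntermediateField.finrank_eq_fixingSubgroup_index, hfix]
    exact hHi
  · intro q hq hqS
    obtain ⟨A, hA, hI⟩ := hHunr q hq hqS
    refine ⟨A, hA, fun σ hσ => ?_⟩
    rw [hfix]
    exact hI hσ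

/-- Variant with the inertia condition at *all* places above `q` (as in
`GaloisRepAdic.IsUnramifiedAt`). -/
theorem finite_openNormal_unramifiedOutside' (S : Finset ℕ) (n : ℕ) :
    {H : Subgroup GQ | H.Normal ∧ IsOpen (H : Set GQ) ∧ H.index ≤ n ∧
      ∀ q : ℕ, q.Prime → q ∉ S → ∀ A : ValuationSubring Qb, A.LiesOverPrime q →
        A.inertiaSubgroupIn ℚ ≤ H}.Finite := by
  refine (finite_openNormal_unramifiedOutside S n).subset ?_
  rintro H ⟨hHn, hHo, hHi, hHunr⟩
  refine ⟨hHn, hHo, hHi, fun q hq hqS => ?_⟩
  obtain ⟨A, hA⟩ := exists_valuationSubring_liesOver q hq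
  exact ⟨A, hA, hHunr q hq hqS A hA⟩

end Fermat.Agent.HermiteMinkowski
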