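/-
Hermite–Minkowski, application (helper10): over a FINITE local ring `A` there are only finitely
many equivalence classes of Galois representations `GaloisRepAdic A` unramified outside a finite
set `S` of primes (`finite_quotient_galoisRepAdic_of_unramified_outside`).
-/
import Fermat.Prelude.Def_GaloisRep_DeformationCondition
import Fermat.Agent.S59.DefCond.TestQuot
import Fermat.Agent.Lib.HermiteMinkowski.Finite

set_option autoImplicit false
set_option linter.style.haveILetI false

namespace Fermat.Agent.HermiteMinkowski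

open Fermat.Agent.FrobExists

attribute [local instance] isAlgebraic_Qb isAlgClosure_Qb

/-- A quotient is finite as soon as there is an invariant with finite range which detects the
relation. -/
theorem hm_finite_quotient {X : Sort*} (s : Setoid X) {F : Type*} (f : X → F)
    (hrange : (Set.range f).Finite) (hf : ∀ x y, f x = f y → s.r x y) :
    Finite (Quotient s) := by
  have : Finite (Set.range f) := hrange
  let g : Set.range f → Quotient s := fun y => Quotient.mk s y.2.choose
  refine Finite.of_surjective g ?_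
  intro c
  obtain ⟨x, rfl⟩ := Quotient.exists_rep c
  refine ⟨⟨f x, x, rfl⟩, ?_⟩
  apply Quotient.sound
  exact hf _ _ (Exists.choose_spec (⟨x, rfl⟩ : ∃ y, f y = f x))

/-- Functions on a group which are invariant under right translation by a subgroup of finite
index, with values in a finite type, form a finite set. -/
theorem hm_finite_invariant_functions {G : Type*} [Group G] (H : Subgroup G)
    [Finite (G ⧸ H)] (M : Type*) [Finite M] :
    {g : G → M | ∀ σ h, h ∈ H → g (σ * h) = g σ}.Finite := by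
  refine Set.Finite.of_injOn (f := fun (g : G → M) (c : G ⧸ H) => g (Quotient.out c))
    (t := Set.univ) (fun _ _ => Set.mem_univ _) ?_ Set.finite_univ
  intro g hg g' hg' hgg'
  funext σ
  have hσ : ∀ k : G → M, (∀ σ h, h ∈ H → k (σ * h) = k σ) →
      k σ = k (Quotient.out (QuotientGroup.mk σ : G ⧸ H)) := by
    intro k hk
    have h1 : (QuotientGroup.mk (Quotient.out (QuotientGroup.mk σ : G ⧸ H)) : G ⧸ H) =
        QuotientGroup.mk σ := Quotient.out_eq _
    rw [QuotientGroup.eq] at h1
    have h2 := hk (Quotient.out (QuotientGroup.mk σ : G ⧸ H)) _ h1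
    rw [mul_inv_cancel_left] at h2
    exact h2
  rw [hσ g hg, hσ g' hg']
  exact congrFun hgg' _

section

variable {A : Type} [CommRing A] [IsLocalRing A]

/-- A basis of the underlying module of `ρ`, indexed by `Fin 2`. -/
noncomputable def hmBasis (ρ : GaloisRepAdic A) : Module.Basis (Fin 2) A ρ.V :=
  Module.finBasisOfFinrankEq A ρ.V ρ.finrank_eq

/-- The matrix of `ρ σ` in the chosen basis. -/
noncomputable def hmMat (ρ : GaloisRepAdic A) : GQ →* Matrix (Fin 2) (Fin 2) A :=
  ((LinearMap.toMatrixAlgEquiv (hmBasis ρ) :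
    (ρ.V →ₗ[A] ρ.V) ≃ₐ[A] Matrix (Fin 2) (Fin 2) A) : (ρ.V →ₗ[A] ρ.V) →* _).comp ρ.ρ

theorem hmMat_apply (ρ : GaloisRepAdic A) (σ : GQ) :
    hmMat ρ σ = LinearMap.toMatrix (hmBasis ρ) (hmBasis ρ) (ρ.ρ σ) := rfl

theorem hmMat_eq_one_iff (ρ : GaloisRepAdic A) (σ : GQ) :
    hmMat ρ σ = 1 ↔ ρ.ρ σ = 1 := by
  rw [hmMat_apply]
  constructor
  · intro h
    apply (LinearMap.toMatrixAlgEquiv (hmBasis ρ)).injective
    rw [map_one]
    exact h
  · intro h
    rw [h]
    exact map_one (LinearMap.toMatrixAlgEquiv (hmBasis ρ))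

/-- Representations with the same matrices are equivalent. -/
theorem hm_isEquiv_of_hmMat_eq (ρ ρ' : GaloisRepAdic A)
    (h : (hmMat ρ : GQ → Matrix (Fin 2) (Fin 2) A) = hmMat ρ') : ρ.IsEquiv ρ' := by
  refine ⟨⟨(hmBasis ρ).repr.trans (hmBasis ρ').repr.symm, fun σ x => ?_⟩⟩
  apply (hmBasis ρ').repr.injective
  rw [LinearEquiv.trans_apply, LinearEquiv.apply_symm_apply]
  apply DFunLike.coe_injective
  rw [← LinearMap.toMatrix_mulVec_repr (hmBasis ρ) (hmBasis ρ) (ρ.ρ σ) x,
    ← LinearMap.toMatrix_mulVec_repr (hmBasis ρ') (hmBasis ρ') (ρ'.ρ σ),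
    ← hmMat_apply, ← hmMat_apply, h, LinearEquiv.trans_apply, LinearEquiv.apply_symm_apply]

/-- The matrix function is invariant under the kernel. -/
theorem hmMat_mul_of_mem_ker (ρ : GaloisRepAdic A) (σ h : GQ) (hh : h ∈ (hmMat ρ).ker) :
    hmMat ρ (σ * h) = hmMat ρ σ := by
  rw [map_mul, MonoidHom.mem_ker.mp hh, mul_one]

variable [Finite A]

/-- Over a finite coefficient ring the kernel of `ρ` is open. -/
theorem hm_isOpen_ker_hmMat (ρ : GaloisRepAdic A) : IsOpen ((hmMat ρ).ker : Set GQ) := by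
  obtain ⟨N, hN⟩ := Fermat.Agent.S59.TestQuot.exists_pow_maximalIdeal_eq_bot A
  obtain ⟨L, hL, h1⟩ := ρ.isAdicContinuous N
  refine Subgroup.isOpen_mono (H₁ := L.fixingSubgroup) ?_ (IntermediateField.fixingSubgroup_isOpen L)
  intro σ hσ
  rw [MonoidHom.mem_ker, hmMat_eq_one_iff]
  refine LinearMap.ext fun v => ?_
  have h := h1 σ (fun x hx => (IntermediateField.mem_fixingSubgroup_iff L σ).mp hσ x hx) v
  rw [hN, Submodule.bot_smul, Submodule.mem_bot, sub_eq_zero] at h
  exact h

/-- The index of the kernel of `ρ` is bounded in terms of the coefficient ring only. -/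
theorem hm_index_ker_hmMat_le (ρ : GaloisRepAdic A) :
    (hmMat ρ).ker.index ≤ Nat.card (Matrix (Fin 2) (Fin 2) A)ˣ := by
  have hker : (hmMat ρ).ker = (hmMat ρ).toHomUnits.ker := by
    ext σ
    rw [MonoidHom.mem_ker, MonoidHom.mem_ker, Units.ext_iff, MonoidHom.coe_toHomUnits,
      Units.val_one]
  rw [hker, Subgroup.index_ker]
  exact Nat.card_le_card_of_injective _ Subtype.val_injective

/-- The matrix functions of representations over a finite local ring unramified outside `S`
form a finite set. -/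
theorem hm_finite_range_hmMat (S : Finset ℕ) (P : GaloisRepAdic A → Prop)
    (hP : ∀ ρ, P ρ → ∀ q : ℕ, q.Prime → q ∉ S → ρ.IsUnramifiedAt q) :
    (Set.range fun ρ : {ρ : GaloisRepAdic A // P ρ} =>
      (hmMat ρ.1 : GQ → Matrix (Fin 2) (Fin 2) A)).Finite := by
  have hN := finite_openNormal_unramifiedOutside' S
    (Nat.card (Matrix (Fin 2) (Fin 2) A)ˣ)
  refine (hN.biUnion (t := fun H : Subgroup GQ =>
    {g : GQ → Matrix (Fin 2) (Fin 2) A | ∀ σ h, h ∈ H → g (σ * h) = g σ}) ?_).subset ?_
  · rintro H ⟨-, hHo, -, -⟩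
    have : Finite (GQ ⧸ H) := Subgroup.quotient_finite_of_isOpen H hHo
    exact hm_finite_invariant_functions H _
  · rintro _ ⟨ρ, rfl⟩
    rw [Set.mem_iUnion₂]
    refine ⟨(hmMat ρ.1).ker, ⟨MonoidHom.normal_ker _, hm_isOpen_ker_hmMat ρ.1,
      hm_index_ker_hmMat_le ρ.1, ?_⟩, fun σ h hh => hmMat_mul_of_mem_ker ρ.1 σ h hh⟩
    intro q hq hqS B hB σ hσ
    rw [MonoidHom.mem_ker, hmMat_eq_one_iff]
    exact hP ρ.1 ρ.2 q hq hqS B hB σ hσ

/-- **Finiteness of deformations over a finite ring**: over a finite local ring there are only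
finitely many equivalence classes of representations unramified outside `S`. -/
theorem finite_quotient_galoisRepAdic_of_unramified_outside (S : Finset ℕ)
    (P : GaloisRepAdic A → Prop)
    (hP : ∀ ρ, P ρ → ∀ q : ℕ, q.Prime → q ∉ S → ρ.IsUnramifiedAt q)
    (s : Setoid {ρ : GaloisRepAdic A // P ρ}) (hs : ∀ ρ ρ', ρ.1.IsEquiv ρ'.1 → s.r ρ ρ') :
    Finite (Quotient s) :=
  hm_finite_quotient s _ (hm_finite_range_hmMat S P hP)
    fun ρ ρ' h => hs ρ ρ' (hm_isEquiv_of_hmMat_eq ρ.1 ρ'.1 h)

end

end Fermat.Agent.HermiteMinkowski
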